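import Mathlib
import Fermat.Prelude.Def_ModularCurve_GenusNumerics

/-!
# S20 / A3 (helper64): arithmetic core of the cusp count

Integer-style classification of the `T`-orbits on `SL(2,ℤ) ⧸ Γ₀(N)`.
For first columns `(a, c)`, `(a', c')` of two matrices the relation
"same `T`-orbit of cosets" is `relT N a c a' c'`, and the invariant is
`(gcd(c, N), a * (c / gcd(c,N))⁻¹ mod gcd(d, N/d))`.
-/

set_option autoImplicit false

namespace Fermat.Agent.S20.H64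

/-- level of the lower-left entry: `gcd(c, N)`. -/
def lev (N : ℕ) (c : ℤ) : ℕ := Int.gcd c N

/-- `gcd(d, N/d)`. -/
def gg (N d : ℕ) : ℕ := Nat.gcd d (N / d)

lemma lev_dvd (N : ℕ) (c : ℤ) : lev N c ∣ N := by
  have h : ((lev N c : ℕ) : ℤ) ∣ (N : ℤ) := Int.gcd_dvd_right ..
  exact_mod_cast h

lemma lev_dvd_left (N : ℕ) (c : ℤ) : ((lev N c : ℕ) : ℤ) ∣ c := Int.gcd_dvd_left ..

lemma lev_dvd_right (N : ℕ) (c : ℤ) : ((lev N c : ℕ) : ℤ) ∣ (N : ℤ) := Int.gcd_dvd_right ..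

lemma lev_pos (N : ℕ) [NeZero N] (c : ℤ) : 0 < lev N c :=
  Nat.pos_of_dvd_of_pos (lev_dvd N c) (NeZero.pos N)

lemma lev_ne_zero (N : ℕ) [NeZero N] (c : ℤ) : lev N c ≠ 0 := (lev_pos N c).ne'

lemma lev_mem_divisors (N : ℕ) [NeZero N] (c : ℤ) : lev N c ∈ N.divisors :=
  Nat.mem_divisors.mpr ⟨lev_dvd N c, NeZero.ne N⟩

lemma lev_natCast_of_dvd (N : ℕ) {d : ℕ} (hd : d ∣ N) : lev N (d : ℤ) = d := by
  simp [lev, Int.gcd_natCast_natCast, Nat.gcd_eq_left hd]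

lemma gg_dvd_left (N d : ℕ) : gg N d ∣ d := Nat.gcd_dvd_left ..

lemma gg_dvd_right (N d : ℕ) : gg N d ∣ N / d := Nat.gcd_dvd_right ..

lemma gg_pos (N : ℕ) {d : ℕ} (hd : 0 < d) : 0 < gg N d := Nat.gcd_pos_of_pos_left _ hd

/-- `c = d * (c / d)` for `d = gcd(c, N)`. -/
lemma lev_mul_ediv (N : ℕ) (c : ℤ) : ((lev N c : ℕ) : ℤ) * (c / (lev N c : ℕ)) = c :=
  Int.mul_ediv_cancel' (lev_dvd_left N c)

lemma lev_mul_div (N : ℕ) (c : ℤ) : ((lev N c : ℕ) : ℤ) * ((N / lev N c : ℕ) : ℤ) = N := by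
  exact_mod_cast Nat.mul_div_cancel' (lev_dvd N c)

/-- `c / gcd(c,N)` is coprime to `N / gcd(c,N)`. -/
lemma isCoprime_ediv_lev (N : ℕ) [NeZero N] (c : ℤ) :
    IsCoprime (c / (lev N c : ℕ)) ((N / lev N c : ℕ) : ℤ) := by
  have hb : ((lev N c : ℕ) : ℤ) = c * Int.gcdA c N + N * Int.gcdB c N := Int.gcd_eq_gcd_ab c N
  have hd : ((lev N c : ℕ) : ℤ) ≠ 0 := by exact_mod_cast lev_ne_zero N c
  refine ⟨Int.gcdA c N, Int.gcdB c N, ?_⟩
  apply mul_left_cancel₀ hd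
  have h1 := lev_mul_ediv N c
  have h2 := lev_mul_div N c
  linear_combination (Int.gcdA c N) * h1 + (Int.gcdB c N) * h2 - hb

/-- `c / gcd(c,N)` is coprime to `gcd(d, N/d)`, `d = gcd(c,N)`. -/
lemma isCoprime_ediv_gg (N : ℕ) [NeZero N] (c : ℤ) :
    IsCoprime (c / (lev N c : ℕ)) ((gg N (lev N c) : ℕ) : ℤ) :=
  (isCoprime_ediv_lev N c).of_isCoprime_of_dvd_right
    (Int.natCast_dvd_natCast.mpr (gg_dvd_right N (lev N c)))

/-- `a` is coprime to `gcd(d, N/d)`, `d = gcd(c,N)`, if `a` is coprime to `c`. -/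
lemma isCoprime_gg (N : ℕ) {a c : ℤ} (h : IsCoprime a c) :
    IsCoprime a ((gg N (lev N c) : ℕ) : ℤ) :=
  h.of_isCoprime_of_dvd_right
    ((Int.natCast_dvd_natCast.mpr (gg_dvd_left N (lev N c))).trans (lev_dvd_left N c))

/-- The `T`-orbit relation on first columns: `T^k g Γ₀(N) = g' Γ₀(N)` for some `k`. -/
def relT (N : ℕ) (a c a' c' : ℤ) : Prop :=
  ∃ k : ℤ, (N : ℤ) ∣ a' * c - a * c' + k * (c * c')

lemma core_exists (d m u u' a a' g : ℤ) (hg : ∃ p q : ℤ, g = d * p + m * q)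
    (hu : IsCoprime u m) (hu' : IsCoprime u' m) (ht : g ∣ a * u' - a' * u) :
    ∃ k : ℤ, d * m ∣ a' * (d * u) - a * (d * u') + k * ((d * u) * (d * u')) := by
  obtain ⟨p, q, rfl⟩ := hg
  obtain ⟨s, hs⟩ := ht
  obtain ⟨x, y, hw⟩ := hu.mul_left hu'
  refine ⟨s * p * x, ⟨-s * q - s * p * d * y, ?_⟩⟩
  linear_combination (-d) * hs + (d ^ 2 * s * p) * hw

lemma core_forall (d m u u' a a' k g : ℤ) (hd : d ≠ 0) (hgd : g ∣ d) (hgm : g ∣ m)
    (hk : d * m ∣ a' * (d * u) - a * (d * u') + k * ((d * u) * (d * u'))) :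
    g ∣ a * u' - a' * u := by
  have h1 : d * m ∣ d * (a' * u - a * u' + k * d * u * u') := by
    convert hk using 1; ring
  have h2 : m ∣ a' * u - a * u' + k * d * u * u' := (mul_dvd_mul_iff_left hd).mp h1
  have h3 : g ∣ a' * u - a * u' + k * d * u * u' := hgm.trans h2
  have h4 : g ∣ k * d * u * u' := ((hgd.mul_left k).mul_right u).mul_right u'
  have h5 : g ∣ a' * u - a * u' := (Int.dvd_add_left h4).mp h3
  have h6 : a * u' - a' * u = -(a' * u - a * u') := by ring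
  rw [h6]
  exact (Int.dvd_neg).mpr h5

lemma lev_dvd_lev_of (N : ℕ) {a c a' c' k : ℤ} (h : IsCoprime a c)
    (hk : (N : ℤ) ∣ a' * c - a * c' + k * (c * c')) : lev N c ∣ lev N c' := by
  have h1 : ((lev N c : ℕ) : ℤ) ∣ c := lev_dvd_left N c
  have h2 : ((lev N c : ℕ) : ℤ) ∣ (N : ℤ) := lev_dvd_right N c
  have h3 : ((lev N c : ℕ) : ℤ) ∣ a * c' := by
    have h4 := h2.trans hk
    have h5 : ((lev N c : ℕ) : ℤ) ∣ a' * c + k * (c * c') :=
      Dvd.dvd.add (h1.mul_left _) ((h1.mul_right _).mul_left _)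
    have h6 := Dvd.dvd.sub h5 h4
    have h7 : a' * c + k * (c * c') - (a' * c - a * c' + k * (c * c')) = a * c' := by ring
    rwa [h7] at h6
  have hcop : IsCoprime ((lev N c : ℕ) : ℤ) a := h.symm.of_isCoprime_of_dvd_left h1
  have h6 : ((lev N c : ℕ) : ℤ) ∣ c' := hcop.dvd_of_dvd_mul_left h3
  have h7 : ((lev N c : ℕ) : ℤ) ∣ ((lev N c' : ℕ) : ℤ) := Int.dvd_coe_gcd h6 h2
  exact_mod_cast h7

lemma relT_symm (N : ℕ) {a c a' c' : ℤ} (h : relT N a c a' c') : relT N a' c' a c := by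
  obtain ⟨k, hk⟩ := h
  refine ⟨-k, ?_⟩
  have h1 : a * c' - a' * c + -k * (c' * c) = -(a' * c - a * c' + k * (c * c')) := by ring
  rw [h1]
  exact (Int.dvd_neg).mpr hk

/-- The classification of the relation `relT`. -/
theorem relT_iff (N : ℕ) [NeZero N] {a c a' c' : ℤ} (h : IsCoprime a c) (h' : IsCoprime a' c') :
    relT N a c a' c' ↔ lev N c = lev N c' ∧
      ((gg N (lev N c) : ℕ) : ℤ) ∣
        a * (c' / (lev N c' : ℕ)) - a' * (c / (lev N c : ℕ)) := by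
  constructor
  · intro hr
    have hlev : lev N c = lev N c' := by
      obtain ⟨k, hk⟩ := hr
      obtain ⟨k', hk'⟩ := relT_symm N ⟨k, hk⟩
      exact Nat.dvd_antisymm (lev_dvd_lev_of N h hk) (lev_dvd_lev_of N h' hk')
    refine ⟨hlev, ?_⟩
    obtain ⟨k, hk⟩ := hr
    have hc := lev_mul_ediv N c
    have hc' := lev_mul_ediv N c'
    have hN := lev_mul_div N c
    rw [← hlev] at hc' ⊢
    have hd : ((lev N c : ℕ) : ℤ) ≠ 0 := by exact_mod_cast lev_ne_zero N c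
    refine core_forall (lev N c : ℕ) ((N / lev N c : ℕ) : ℤ) (c / (lev N c : ℕ))
      (c' / (lev N c : ℕ)) a a' k _ hd
      (Int.natCast_dvd_natCast.mpr (gg_dvd_left N (lev N c)))
      (Int.natCast_dvd_natCast.mpr (gg_dvd_right N (lev N c))) ?_
    rw [hc, hc', hN]
    exact hk
  · rintro ⟨hlev, hdiv⟩
    have hc := lev_mul_ediv N c
    have hc' := lev_mul_ediv N c'
    have hN := lev_mul_div N c
    have hu := isCoprime_ediv_lev N c
    have hu' := isCoprime_ediv_lev N c'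
    rw [← hlev] at hc' hu' hdiv
    have hg : ∃ p q : ℤ, ((gg N (lev N c) : ℕ) : ℤ)
        = ((lev N c : ℕ) : ℤ) * p + ((N / lev N c : ℕ) : ℤ) * q :=
      ⟨Nat.gcdA (lev N c) (N / lev N c), Nat.gcdB (lev N c) (N / lev N c),
        Nat.gcd_eq_gcd_ab (lev N c) (N / lev N c)⟩
    obtain ⟨k, hk⟩ := core_exists (lev N c : ℕ) ((N / lev N c : ℕ) : ℤ) (c / (lev N c : ℕ))
      (c' / (lev N c : ℕ)) a a' _ hg hu hu' hdiv
    rw [hc, hc', hN] at hk
    exact ⟨k, hk⟩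

/-! ### The invariant -/

/-- second component of the cusp invariant, as a natural number. -/
noncomputable def invVal (N : ℕ) (a c : ℤ) : ℕ :=
  ((a : ZMod (gg N (lev N c))) * ((c / (lev N c : ℕ) : ℤ) : ZMod (gg N (lev N c)))⁻¹).val

lemma zmod_mul_inv_eq_iff {n : ℕ} {a u a' u' : ZMod n} (hu : IsUnit u) (hu' : IsUnit u') :
    a * u⁻¹ = a' * u'⁻¹ ↔ a * u' = a' * u := by
  have e1 : u * u⁻¹ = 1 := ZMod.mul_inv_of_unit u hu
  have e2 : u' * u'⁻¹ = 1 := ZMod.mul_inv_of_unit u' hu'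
  constructor
  · intro h
    linear_combination (u * u') * h - (a * u') * e1 + (a' * u) * e2
  · intro h
    linear_combination (u⁻¹ * u'⁻¹) * h - (a * u⁻¹) * e2 + (a' * u'⁻¹) * e1

/-- the finite set of cusp data `(d, r)`: `d ∣ N`, `r` a unit residue mod `gcd(d, N/d)`. -/
def cuspData (N : ℕ) : Finset (Σ _ : ℕ, ℕ) :=
  N.divisors.sigma fun d => (Finset.range (gg N d)).filter fun r => (gg N d).Coprime r

lemma card_cuspData (N : ℕ) : (cuspData N).card = ModularCurve.cuspCount N := by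
  rw [cuspData, Finset.card_sigma, ModularCurve.cuspCount]
  refine Finset.sum_congr rfl fun d _ => ?_
  rw [Nat.totient_eq_card_coprime]
  rfl

lemma isUnit_invVal_aux (N : ℕ) [NeZero N] {a c : ℤ} (h : IsCoprime a c) :
    IsUnit ((a : ZMod (gg N (lev N c))) *
      ((c / (lev N c : ℕ) : ℤ) : ZMod (gg N (lev N c)))⁻¹) := by
  have h1 : IsUnit ((a : ℤ) : ZMod (gg N (lev N c))) :=
    (ZMod.coe_int_isUnit_iff_isCoprime a _).mpr (isCoprime_gg N h).symm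
  have h2 : IsUnit ((c / (lev N c : ℕ) : ℤ) : ZMod (gg N (lev N c))) :=
    (ZMod.coe_int_isUnit_iff_isCoprime _ _).mpr (isCoprime_ediv_gg N c).symm
  exact h1.mul (ZMod.isUnit_inv h2)

lemma invVal_mem (N : ℕ) [NeZero N] {a c : ℤ} (h : IsCoprime a c) :
    (⟨lev N c, invVal N a c⟩ : Σ _ : ℕ, ℕ) ∈ cuspData N := by
  have hpos : 0 < gg N (lev N c) := gg_pos N (lev_pos N c)
  have : NeZero (gg N (lev N c)) := ⟨hpos.ne'⟩
  rw [cuspData, Finset.mem_sigma]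
  refine ⟨lev_mem_divisors N c, ?_⟩
  rw [Finset.mem_filter, Finset.mem_range]
  refine ⟨ZMod.val_lt _, ?_⟩
  have hu := isUnit_invVal_aux N h
  have := ZMod.val_coe_unit_coprime hu.unit
  rw [IsUnit.unit_spec] at this
  exact this.symm

/-- The cusp invariant of a coprime pair. -/
noncomputable def cuspInv (N : ℕ) [NeZero N] (a c : ℤ) (h : IsCoprime a c) : cuspData N :=
  ⟨⟨lev N c, invVal N a c⟩, invVal_mem N h⟩

theorem cuspInv_eq_iff (N : ℕ) [NeZero N] {a c a' c' : ℤ} (h : IsCoprime a c)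
    (h' : IsCoprime a' c') :
    cuspInv N a c h = cuspInv N a' c' h' ↔ relT N a c a' c' := by
  rw [relT_iff N h h', cuspInv, cuspInv, Subtype.mk.injEq, Sigma.mk.inj_iff, heq_iff_eq]
  refine and_congr_right fun hlev => ?_
  have hpos : 0 < gg N (lev N c) := gg_pos N (lev_pos N c)
  have : NeZero (gg N (lev N c)) := ⟨hpos.ne'⟩
  have h2 : IsUnit ((c / (lev N c : ℕ) : ℤ) : ZMod (gg N (lev N c))) :=
    (ZMod.coe_int_isUnit_iff_isCoprime _ _).mpr (isCoprime_ediv_gg N c).symm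
  have h2' : IsUnit ((c' / (lev N c : ℕ) : ℤ) : ZMod (gg N (lev N c))) := by
    have := (ZMod.coe_int_isUnit_iff_isCoprime _ _).mpr (isCoprime_ediv_gg N c').symm
    rwa [← hlev] at this
  unfold invVal
  rw [← hlev, (ZMod.val_injective _).eq_iff, zmod_mul_inv_eq_iff h2 h2',
    ← Int.cast_mul, ← Int.cast_mul, eq_comm, ZMod.intCast_eq_intCast_iff_dvd_sub]

theorem cuspInv_surjective (N : ℕ) [NeZero N] (x : cuspData N) :
    ∃ (a c : ℤ) (h : IsCoprime a c), cuspInv N a c h = x := by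
  obtain ⟨⟨d, r⟩, hx⟩ := x
  have hx' := hx
  rw [cuspData, Finset.mem_sigma, Finset.mem_filter, Finset.mem_range] at hx'
  obtain ⟨hd, hr, hcop⟩ := hx'
  have hdN : d ∣ N := Nat.dvd_of_mem_divisors hd
  have hdpos : 0 < d := Nat.pos_of_mem_divisors hd
  have : NeZero d := ⟨hdpos.ne'⟩
  have : NeZero (gg N d) := ⟨(gg_pos N hdpos).ne'⟩
  obtain ⟨e, he⟩ := ZMod.unitsMap_surjective (gg_dvd_left N d) (ZMod.unitOfCoprime r hcop.symm)
  have hcop2 : Nat.Coprime (e : ZMod d).val d := ZMod.val_coe_unit_coprime e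
  have hco : IsCoprime (((e : ZMod d).val : ℕ) : ℤ) (d : ℤ) := Nat.isCoprime_iff_coprime.mpr hcop2
  refine ⟨((e : ZMod d).val : ℕ), (d : ℤ), hco, ?_⟩
  have hlev : lev N (d : ℤ) = d := lev_natCast_of_dvd N hdN
  rw [cuspInv, Subtype.mk.injEq, Sigma.mk.inj_iff, heq_iff_eq]
  refine ⟨hlev, ?_⟩
  unfold invVal
  rw [hlev]
  have h1 : ((d : ℤ) / (d : ℤ)) = 1 := Int.ediv_self (by exact_mod_cast hdpos.ne')
  have h2 : ((((e : ZMod d).val : ℕ) : ℤ) : ZMod (gg N d)) = (r : ZMod (gg N d)) := by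
    have h3 := congrArg (fun u : (ZMod (gg N d))ˣ => (u : ZMod (gg N d))) he
    simp only [ZMod.unitsMap_val, ZMod.coe_unitOfCoprime] at h3
    rw [Int.cast_natCast, ZMod.natCast_val]
    exact h3
  rw [h1, h2, Int.cast_one, ZMod.inv_one, mul_one]
  exact ZMod.val_natCast_of_lt hr

end Fermat.Agent.S20.H64
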