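import Mathlib
import Fermat.Prelude.Def_ModularCurve_GenusNumerics
import Fermat.Agent.S20.H64.CuspCore

/-!
# S20 / A3 (helper64): the number of `T`-orbits on `SL(2,ℤ) ⧸ Γ₀(N)` is `cuspCount N`
-/

set_option autoImplicit false

namespace Fermat.Agent.S20.H64

open CongruenceSubgroup ModularGroup
open scoped MatrixGroups

/-- counting a quotient by a complete invariant. -/
lemma card_eq_of_fibers {α β γ : Type*} (π : α → β) (F : α → γ)
    (hπ : Function.Surjective π) (hF : Function.Surjective F)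
    (h : ∀ x y, π x = π y ↔ F x = F y) : Nat.card β = Nat.card γ := by
  refine Nat.card_congr (Equiv.ofBijective (fun b => F (Function.surjInv hπ b)) ⟨?_, ?_⟩)
  · intro b b' hb
    have := (h _ _).mpr hb
    rwa [Function.surjInv_eq hπ, Function.surjInv_eq hπ] at this
  · intro c
    obtain ⟨a, rfl⟩ := hF c
    exact ⟨π a, (h _ _).mp (Function.surjInv_eq hπ (π a))⟩

/-- first column of a matrix of `SL(2,ℤ)` is a coprime pair. -/
lemma isCoprime_col (g : SL(2, ℤ)) : IsCoprime (g 0 0) (g 1 0) := by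
  have h := g.det_coe
  rw [Matrix.det_fin_two] at h
  exact ⟨g 1 1, -g 0 1, by linarith⟩

/-- every coprime pair is the first column of a matrix of `SL(2,ℤ)`. -/
lemma exists_col {a c : ℤ} (h : IsCoprime a c) : ∃ g : SL(2, ℤ), g 0 0 = a ∧ g 1 0 = c := by
  obtain ⟨x, y, hxy⟩ := h
  refine ⟨⟨!![a, -y; c, x], ?_⟩, rfl, rfl⟩
  rw [Matrix.det_fin_two_of]
  linarith

/-- lower-left entry of `(T^k * y)⁻¹ * x`. -/
lemma entry_formula (x y : SL(2, ℤ)) (k : ℤ) :
    ((T ^ k * y)⁻¹ * x) 1 0 = y 0 0 * x 1 0 - x 0 0 * y 1 0 + k * (x 1 0 * y 1 0) := by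
  have h3 : (T ^ k * y).1 = !![1, k; 0, 1] * y.1 := by
    rw [Matrix.SpecialLinearGroup.coe_mul, coe_T_zpow]
  have h2 : ((T ^ k * y)⁻¹).1 = !![(T ^ k * y).1 1 1, -(T ^ k * y).1 0 1;
      -(T ^ k * y).1 1 0, (T ^ k * y).1 0 0] := by
    rw [Matrix.SpecialLinearGroup.SL2_inv_expl]; rfl
  have h1 : ((T ^ k * y)⁻¹ * x).1 = ((T ^ k * y)⁻¹).1 * x.1 :=
    Matrix.SpecialLinearGroup.coe_mul _ _
  show ((T ^ k * y)⁻¹ * x).1 1 0 = _
  rw [h1, h2, h3]
  simp only [Matrix.mul_apply, Fin.sum_univ_two, Matrix.of_apply, Matrix.cons_val',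
    Matrix.cons_val_zero, Matrix.cons_val_one, Matrix.cons_val_fin_one]
  ring

/-- same `T`-orbit of cosets `⟺` the relation `relT` on first columns. -/
lemma orbit_iff_relT (N : ℕ) (x y : SL(2, ℤ)) :
    (∃ k : ℤ, ((T ^ k * y : SL(2, ℤ)) : SL(2, ℤ) ⧸ Gamma0 N) = (x : SL(2, ℤ) ⧸ Gamma0 N)) ↔
      relT N (x 0 0) (x 1 0) (y 0 0) (y 1 0) := by
  refine exists_congr fun k => ?_
  rw [QuotientGroup.eq, Gamma0_mem, entry_formula, ZMod.intCast_zmod_eq_zero_iff_dvd]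

/-- the cusp invariant of a matrix. -/
noncomputable def cuspInvSL (N : ℕ) [NeZero N] (g : SL(2, ℤ)) : cuspData N :=
  cuspInv N (g 0 0) (g 1 0) (isCoprime_col g)

/-- the projection to the `T`-orbit space of the coset space. -/
def orbitProj (N : ℕ) (g : SL(2, ℤ)) :
    MulAction.orbitRel.Quotient (Subgroup.zpowers T) (SL(2, ℤ) ⧸ Gamma0 N) :=
  Quotient.mk'' (g : SL(2, ℤ) ⧸ Gamma0 N)

lemma orbitProj_surjective (N : ℕ) : Function.Surjective (orbitProj N) := by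
  intro q
  induction q using Quotient.inductionOn' with
  | h c =>
    obtain ⟨g, rfl⟩ := QuotientGroup.mk_surjective c
    exact ⟨g, rfl⟩

lemma orbitProj_eq_iff (N : ℕ) (x y : SL(2, ℤ)) :
    orbitProj N x = orbitProj N y ↔
      ∃ k : ℤ, ((T ^ k * y : SL(2, ℤ)) : SL(2, ℤ) ⧸ Gamma0 N) = (x : SL(2, ℤ) ⧸ Gamma0 N) := by
  unfold orbitProj
  rw [Quotient.eq'', MulAction.orbitRel_apply, MulAction.mem_orbit_iff]
  constructor
  · rintro ⟨⟨t, ht⟩, h⟩
    obtain ⟨k, rfl⟩ := Subgroup.mem_zpowers_iff.mp ht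
    exact ⟨k, h⟩
  · rintro ⟨k, h⟩
    exact ⟨⟨T ^ k, Subgroup.zpow_mem_zpowers T k⟩, h⟩

/-- `T`-orbit classification: two matrices have the same cusp invariant iff their cosets
mod `Γ₀(N)` are in the same `T`-orbit. -/
theorem cuspInvSL_eq_iff (N : ℕ) [NeZero N] (x y : SL(2, ℤ)) :
    cuspInvSL N x = cuspInvSL N y ↔
      ∃ k : ℤ, ((T ^ k * y : SL(2, ℤ)) : SL(2, ℤ) ⧸ Gamma0 N) = (x : SL(2, ℤ) ⧸ Gamma0 N) := by
  rw [orbit_iff_relT, cuspInvSL, cuspInvSL, cuspInv_eq_iff]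

theorem cuspInvSL_surjective (N : ℕ) [NeZero N] : Function.Surjective (cuspInvSL N) := by
  intro x
  obtain ⟨a, c, h, hx⟩ := cuspInv_surjective N x
  obtain ⟨g, rfl, rfl⟩ := exists_col h
  exact ⟨g, hx⟩

/-- **A3**: the number of orbits of `T` on `SL(2,ℤ) ⧸ Γ₀(N)` is `cuspCount N`. -/
theorem card_T_orbits (N : ℕ) [NeZero N] :
    Nat.card (MulAction.orbitRel.Quotient (Subgroup.zpowers T) (SL(2, ℤ) ⧸ Gamma0 N))
      = ModularCurve.cuspCount N := by
  rw [card_eq_of_fibers (orbitProj N) (cuspInvSL N) (orbitProj_surjective N)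
    (cuspInvSL_surjective N) (fun x y => by rw [orbitProj_eq_iff, cuspInvSL_eq_iff]),
    Nat.card_eq_finsetCard, card_cuspData]

end Fermat.Agent.S20.H64
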